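import Mathlib.Algebra.Order.Round
import Mathlib.Analysis.RCLike.Basic
import Mathlib.LinearAlgebra.Dimension.Free
import Mathlib.LinearAlgebra.Dimension.RankNullity
import Mathlib.LinearAlgebra.Dimension.Constructions
import Mathlib.LinearAlgebra.Dimension.Torsion.Finite
import Mathlib.GroupTheory.FiniteAbelian.Basic
import Mathlib.LinearAlgebra.FreeModule.PID
import Mathlib.GroupTheory.GroupAction.Basic
import Mathlib.RingTheory.Finiteness.Cardinality

/-!
# Equivariant maps with finite kernel and cokernel from logarithmic data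

If a finitely generated group `U` of rank `#V - 1` with an action of a finite group `A` maps
equivariantly to `V → ℝ` with image spanning a complement of the constants, there is an
equivariant homomorphism `(V → ℤ) → U` whose kernel is the constants and whose cokernel is finite.
-/

set_option autoImplicit false

noncomputable section

open scoped Classical

namespace Fermat.Agent.DeckUnits

variable {V : Type*} [Fintype V]

/-- The homomorphism attached to a family. -/
def familyHom {U : Type*} [AddCommGroup U] (u : V → U) : (V → ℤ) →+ U where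
  toFun f := ∑ v, f v • u v
  map_zero' := by simp
  map_add' f g := by simp [add_smul, Finset.sum_add_distrib]

theorem familyHom_apply {U : Type*} [AddCommGroup U] (u : V → U) (f : V → ℤ) :
    familyHom u f = ∑ v, f v • u v := rfl

/-- Integral approximation of real combinations with an error independent of the scale. -/
theorem exists_approx {U : Type*} [AddCommGroup U] (L : U →+ (V → ℝ))
    (hspan : Submodule.span ℝ (Set.range L ∪ {fun _ => (1 : ℝ)}) = ⊤) (v : V) :
    ∃ C : ℝ, ∀ N : ℕ, ∃ (w : U) (c : ℝ), ∀ v' : V,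
      |L w v' - ((Pi.single (M := fun _ => ℝ) v (N : ℝ) : V → ℝ) v' + c)| ≤ C := by
  classical
  have hv : (Pi.single (M := fun _ => ℝ) v 1 : V → ℝ) ∈
      Submodule.span ℝ (Set.range L ∪ {fun _ => (1 : ℝ)}) := hspan ▸ Submodule.mem_top
  rw [Submodule.span_union, Submodule.mem_sup] at hv
  obtain ⟨y, hy, z, hz, hyz⟩ := hv
  obtain ⟨c, rfl⟩ := Submodule.mem_span_singleton.1 hz
  obtain ⟨r, rfl⟩ := (Finsupp.mem_span_range_iff_exists_finsupp).1 hy
  refine ⟨∑ i ∈ r.support, ∑ v', |L i v'|, fun N => ?_⟩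
  refine ⟨∑ i ∈ r.support, round ((N : ℝ) * r i) • i, -((N : ℝ) * c), fun v' => ?_⟩
  have h1 : (Pi.single (M := fun _ => ℝ) v (N : ℝ) : V → ℝ) v' + -((N : ℝ) * c) =
      ∑ i ∈ r.support, (N : ℝ) * r i * L i v' := by
    have h := congrArg (fun g : V → ℝ => (N : ℝ) * g v') hyz
    simp only [Pi.add_apply, Pi.smul_apply, smul_eq_mul, mul_one, Finsupp.sum,
      Finset.sum_apply, mul_add, Finset.mul_sum] at h
    have h2 : (Pi.single (M := fun _ => ℝ) v (N : ℝ) : V → ℝ) v' =
        (N : ℝ) * (Pi.single (M := fun _ => ℝ) v 1 : V → ℝ) v' := by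
      rcases eq_or_ne v' v with rfl | hne
      · simp
      · simp [hne]
    rw [h2, ← h, add_neg_cancel_right]
    simp [mul_assoc]
  rw [h1, map_sum]
  simp only [map_zsmul, Finset.sum_apply, zsmul_eq_mul, Pi.mul_apply, Pi.intCast_apply,
      ← Finset.sum_sub_distrib,
    ← sub_mul]
  refine (Finset.abs_sum_le_sum_abs _ _).trans (Finset.sum_le_sum fun i _ => ?_)
  rw [abs_mul]
  calc |(round ((N : ℝ) * r i) : ℝ) - (N : ℝ) * r i| * |L i v'| ≤ 1 * |L i v'| := by
        refine mul_le_mul_of_nonneg_right ?_ (abs_nonneg _)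
        rw [abs_sub_comm]
        exact (abs_sub_round _).trans (by norm_num)
    _ ≤ ∑ v'', |L i v''| := by
        rw [one_mul]
        exact Finset.single_le_sum (f := fun v'' => |L i v''|) (fun _ _ => abs_nonneg _)
          (Finset.mem_univ v')

variable {A : Type*} [Group A] [Fintype A] [MulAction A V]
  {U : Type*} [AddCommGroup U] [DistribMulAction A U]

/-- The symmetrisation of a family, balanced to total sum zero. -/
def balanced (w : V → U) (v : V) : U :=
  Fintype.card V • ∑ a : A, a • w (a⁻¹ • v) - ∑ v', ∑ a : A, a • w (a⁻¹ • v')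

theorem sum_balanced (w : V → U) : ∑ v, balanced (A := A) w v = 0 := by
  simp only [balanced, Finset.sum_sub_distrib, Finset.sum_const, Finset.card_univ,
    Finset.smul_sum, sub_self]

theorem smul_balanced (w : V → U) (b : A) (v : V) :
    balanced (A := A) w (b • v) = b • balanced (A := A) w v := by
  have key : ∀ v, ∑ a : A, a • w (a⁻¹ • (b • v)) = b • ∑ a : A, a • w (a⁻¹ • v) := fun v => by
    rw [Finset.smul_sum]
    refine (Fintype.sum_equiv (Equiv.mulLeft b) _ _ fun a => ?_).symm
    simp [mul_smul, mul_inv_rev]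
  have hsum : b • ∑ v', ∑ a : A, a • w (a⁻¹ • v') = ∑ v', ∑ a : A, a • w (a⁻¹ • v') := by
    rw [Finset.smul_sum]
    exact Fintype.sum_equiv (MulAction.toPerm b) _ _ fun v' => (key v').symm
  rw [balanced, balanced, smul_sub, hsum, key, smul_comm (Fintype.card V) b]

/-- Real vectors close to `a` times the standard basis modulo constants, with error small compared
to `a`, satisfy no nontrivial integral relation of total weight zero. -/
theorem eq_zero_of_near_diagonal (y : V → ℤ) (hy0 : ∑ v, y v = 0) (ℓ : V → V → ℝ) (c : V → ℝ)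
    {a B : ℝ} (hB : 0 ≤ B) (ha : 4 * (Fintype.card V : ℝ) * B < a)
    (hℓ : ∀ v v', |ℓ v v' - ((Pi.single (M := fun _ => ℝ) v a : V → ℝ) v' + c v)| ≤ B)
    (hrel : ∀ v', ∑ v, (y v : ℝ) * ℓ v v' = 0) (v : V) : y v = 0 := by
  have : Nonempty V := ⟨v⟩
  set n : ℕ := Fintype.card V with hn
  have hn0 : 0 < n := Fintype.card_pos
  have ha0 : 0 ≤ a := le_trans (by positivity) ha.le
  set δ : V → V → ℝ := fun v v' => ℓ v v' - ((Pi.single (M := fun _ => ℝ) v a : V → ℝ) v' + c v)
    with hδ
  set K : ℝ := ∑ v, (y v : ℝ) * c v with hK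
  have hexp : ∀ v', (y v' : ℝ) * a + K + ∑ v, (y v : ℝ) * δ v v' = 0 := by
    intro v'
    rw [← hrel v']
    have h1 : (y v' : ℝ) * a =
        ∑ v, (y v : ℝ) * (Pi.single (M := fun _ => ℝ) v a : V → ℝ) v' := by
      rw [Fintype.sum_eq_single v' fun v hv => by simp [Ne.symm hv]]
      simp
    rw [h1, hK, ← Finset.sum_add_distrib, ← Finset.sum_add_distrib]
    exact Finset.sum_congr rfl fun v _ => by simp only [hδ]; ring
  set Y : ℝ := ∑ v, |(y v : ℝ)| with hYdef
  have hD : ∀ v', |∑ v, (y v : ℝ) * δ v v'| ≤ Y * B := fun v' => by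
    refine (Finset.abs_sum_le_sum_abs _ _).trans ?_
    rw [hYdef, Finset.sum_mul]
    exact Finset.sum_le_sum fun v _ => by
      rw [abs_mul]
      exact mul_le_mul_of_nonneg_left (hℓ v v') (abs_nonneg _)
  have hKle : |K| ≤ Y * B := by
    have h : ∑ v', ((y v' : ℝ) * a + K + ∑ v, (y v : ℝ) * δ v v') = 0 :=
      Finset.sum_eq_zero fun v' _ => hexp v'
    rw [Finset.sum_add_distrib, Finset.sum_add_distrib, ← Finset.sum_mul,
      show ∑ v', (y v' : ℝ) = 0 by exact_mod_cast hy0, zero_mul, zero_add, Finset.sum_const,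
      Finset.card_univ, nsmul_eq_mul, ← hn] at h
    have h2 : (n : ℝ) * |K| ≤ (n : ℝ) * (Y * B) := by
      have e : (n : ℝ) * K = -∑ v', ∑ v, (y v : ℝ) * δ v v' := by linarith
      rw [← abs_of_nonneg (Nat.cast_nonneg (α := ℝ) n), ← abs_mul, e, abs_neg,
        abs_of_nonneg (Nat.cast_nonneg (α := ℝ) n)]
      refine (Finset.abs_sum_le_sum_abs _ _).trans
          ((Finset.sum_le_sum fun v' _ => hD v').trans ?_)
      simp [hn]
    exact le_of_mul_le_mul_left h2 (by exact_mod_cast hn0)
  have hY0 : Y = 0 := by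
    have h1 : ∀ v', |(y v' : ℝ)| * a ≤ 2 * (Y * B) := fun v' => by
      have e : (y v' : ℝ) * a = -(K + ∑ v, (y v : ℝ) * δ v v') := by linarith [hexp v']
      rw [← abs_of_nonneg ha0, ← abs_mul, e, abs_neg]
      exact (abs_add_le _ _).trans (by linarith [hD v'])
    have h2 : Y * a ≤ n * (2 * (Y * B)) := by
      rw [hYdef, Finset.sum_mul]
      exact (Finset.sum_le_sum fun v' _ => h1 v').trans_eq (by
        rw [Finset.sum_const, Finset.card_univ, nsmul_eq_mul, ← hn, hYdef, Finset.sum_mul])
    by_contra hne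
    have hYpos : 0 < Y :=
      lt_of_le_of_ne (Finset.sum_nonneg fun _ _ => abs_nonneg _) (Ne.symm hne)
    have h3 : a ≤ 2 * n * B := le_of_mul_le_mul_left (by linarith) hYpos
    have : (0 : ℝ) ≤ n * B := by positivity
    linarith
  have := (Finset.sum_eq_zero_iff_of_nonneg fun i _ => abs_nonneg ((y i : ℝ))).1 hY0 v
    (Finset.mem_univ v)
  exact_mod_cast abs_eq_zero.1 this

omit [Fintype V] in
/-- Symmetrising approximations of the scaled standard basis gives approximations of it. -/
theorem exists_const_sum_smul (L : U →+ (V → ℝ))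
    (hL : ∀ (a : A) (u : U) (v : V), L (a • u) v = L u (a⁻¹ • v)) {N C₀ : ℝ} (w : V → U)
    (c : V → ℝ)
    (hw : ∀ v v', |L (w v) v' - ((Pi.single (M := fun _ => ℝ) v N : V → ℝ) v' + c v)| ≤ C₀)
    (v : V) :
    ∃ c' : ℝ, ∀ v', |L (∑ a : A, a • w (a⁻¹ • v)) v' -
      ((Pi.single (M := fun _ => ℝ) v ((Fintype.card A : ℝ) * N) : V → ℝ) v' + c')| ≤
        Fintype.card A * C₀ := by
  refine ⟨∑ a : A, c (a⁻¹ • v), fun v' => ?_⟩
  have h1 : (Pi.single (M := fun _ => ℝ) v ((Fintype.card A : ℝ) * N) : V → ℝ) v' =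
      ∑ a : A, (Pi.single (M := fun _ => ℝ) (a⁻¹ • v) N : V → ℝ) (a⁻¹ • v') := by
    rcases eq_or_ne v' v with rfl | hne
    · simp
    · simp [hne]
  rw [map_sum, Finset.sum_apply, h1, ← Finset.sum_add_distrib, ← Finset.sum_sub_distrib]
  refine (Finset.abs_sum_le_sum_abs _ _).trans ((Finset.sum_le_sum (g := fun _ => C₀)
    fun a _ => ?_).trans_eq (by simp))
  rw [hL]
  exact hw _ _

/-- If `#V - 1` is the rank of `U` and the kernel of `(V → ℤ) → U` is the constants, the cokernel
is finite. -/
theorem finite_quotient_range [Module.Finite ℤ U] [Nonempty V] (φ : (V → ℤ) →+ U)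
    (hker : ∀ f, φ f = 0 ↔ ∀ v v', f v = f v')
    (hrank : Module.finrank ℤ U + 1 = Fintype.card V) : Finite (U ⧸ φ.range) := by
  let ψ : (V → ℤ) →ₗ[ℤ] U := φ.toIntLinearMap
  have hkerψ : LinearMap.ker ψ = Submodule.span ℤ {fun _ => (1 : ℤ)} := by
    ext f
    rw [LinearMap.mem_ker, Submodule.mem_span_singleton]
    refine ⟨fun h => ⟨f (Classical.arbitrary V), funext fun v => ?_⟩, ?_⟩
    · simp [(hker f).1 h v (Classical.arbitrary V)]
    · rintro ⟨c, rfl⟩
      exact (hker _).2 fun v v' => by simp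
  have h1 : Module.finrank ℤ (LinearMap.ker ψ) = 1 := by
    rw [hkerψ]
    have hb : LinearIndependent ℤ ![(fun _ => (1 : ℤ) : V → ℤ)] :=
      LinearIndependent.of_subsingleton 0 fun h => one_ne_zero (congrFun h
          (Classical.arbitrary V))
    have := finrank_span_eq_card hb
    rw [Matrix.range_cons, Matrix.range_empty, Set.union_empty] at this
    simpa using this
  have h2 : Module.finrank ℤ (LinearMap.range ψ) = Module.finrank ℤ U := by
    have h := Submodule.finrank_quotient_add_finrank (LinearMap.ker ψ)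
    rw [ψ.quotKerEquivRange.finrank_eq, h1, Module.finrank_fintype_fun_eq_card] at h
    omega
  have h3 : Module.finrank ℤ (U ⧸ LinearMap.range ψ) = 0 := by
    have h := Submodule.finrank_quotient_add_finrank (LinearMap.range ψ)
    omega
  have h4 : Module.IsTorsion ℤ (U ⧸ LinearMap.range ψ) :=
    Module.finrank_eq_zero_iff_isTorsion.1 h3
  have h5 : Finite (U ⧸ LinearMap.range ψ) := Module.finite_of_fg_torsion _ h4
  exact h5

/-- The equivariant homomorphism with kernel the constants and finite cokernel. -/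
theorem exists_equivariant_hom [Module.Finite ℤ U] [Nonempty V] (L : U →+ (V → ℝ))
    (hL : ∀ (a : A) (u : U) (v : V), L (a • u) v = L u (a⁻¹ • v))
    (hspan : Submodule.span ℝ (Set.range L ∪ {fun _ => (1 : ℝ)}) = ⊤)
    (hrank : Module.finrank ℤ U + 1 = Fintype.card V) :
    ∃ φ : (V → ℤ) →+ U, (∀ (a : A) (f : V → ℤ), φ (fun v => f (a⁻¹ • v)) = a • φ f) ∧
      (∀ f, φ f = 0 ↔ ∀ v v', f v = f v') ∧ Finite (U ⧸ φ.range) := by
  classical
  choose C hC using exists_approx L hspan
  set C₀ : ℝ := ∑ v, |C v| with hC₀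
  have hC₀0 : 0 ≤ C₀ := Finset.sum_nonneg fun _ _ => abs_nonneg _
  set n : ℕ := Fintype.card V with hn
  have hn0 : 0 < n := Fintype.card_pos
  have hm0 : (0 : ℝ) < Fintype.card A := by exact_mod_cast Fintype.card_pos
  obtain ⟨N, hN⟩ := exists_nat_gt (4 * (n : ℝ) * C₀)
  choose w c hw using fun v => hC v N
  have hw₀ : ∀ v v', |L (w v) v' -
      ((Pi.single (M := fun _ => ℝ) v (N : ℝ) : V → ℝ) v' + c v)| ≤ C₀ := fun v v' =>
    (hw v v').trans ((le_abs_self _).trans
      (Finset.single_le_sum (f := fun x => |C x|) (fun _ _ => abs_nonneg _) (Finset.mem_univ _)))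
  choose c' hc' using exists_const_sum_smul L hL w c hw₀
  set u : V → U := fun v => balanced (A := A) w v with hu
  have hinj : ∀ x : V → ℤ, familyHom u x = 0 → ∀ v v', x v = x v' := by
    intro x hx v v'
    set S : ℤ := ∑ v, x v with hS
    set y : V → ℤ := fun v => (n : ℤ) * x v - S with hy
    have hy0 : ∑ v, y v = 0 := by
      simp [hy, Finset.sum_sub_distrib, ← Finset.mul_sum, hS, hn]
    have hrel : ∑ v, (n : ℤ) • y v • (∑ a : A, a • w (a⁻¹ • v)) = 0 := by
      have h : ∑ v, y v • u v = 0 := by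
        rw [familyHom_apply] at hx
        simp only [hy, sub_smul, mul_smul, Finset.sum_sub_distrib, ← Finset.smul_sum]
        rw [hx, hu, sum_balanced]
        simp
      simp only [hu, balanced, smul_sub, Finset.sum_sub_distrib, ← Finset.sum_smul, hy0,
        zero_smul, sub_zero] at h
      rw [← h]
      refine Finset.sum_congr rfl fun v _ => ?_
      rw [← natCast_zsmul, smul_smul, smul_smul, mul_comm]
    have hY : ∀ v', ∑ v, (y v : ℝ) * L (∑ a : A, a • w (a⁻¹ • v)) v' = 0 := by
      intro v'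
      have h := congrFun (congrArg L hrel) v'
      simp only [← Finset.smul_sum, map_zsmul, map_sum, map_zero, Pi.smul_apply, Finset.sum_apply,
        Pi.zero_apply, zsmul_eq_mul, Int.cast_natCast] at h
      rcases mul_eq_zero.1 h with h' | h'
      · exact absurd (by exact_mod_cast h') hn0.ne'
      · simpa using h'
    have hyz := eq_zero_of_near_diagonal y hy0 (fun v => L (∑ a : A, a • w (a⁻¹ • v))) c'
      (mul_nonneg hm0.le hC₀0) (by
        calc 4 * (n : ℝ) * (Fintype.card A * C₀) = Fintype.card A * (4 * n * C₀) := by ring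
          _ < Fintype.card A * N := mul_lt_mul_of_pos_left hN hm0) hc' hY
    have e1 := hyz v
    have e2 := hyz v'
    simp only [hy, sub_eq_zero] at e1 e2
    exact mul_left_cancel₀ (by exact_mod_cast hn0.ne') (e1.trans e2.symm)
  have hker : ∀ f, familyHom u f = 0 ↔ ∀ v v', f v = f v' := fun f => ⟨hinj f, fun h => by
    rw [familyHom_apply, Finset.sum_congr rfl fun v _ => by rw [h v (Classical.arbitrary V)],
      ← Finset.smul_sum]
    simp only [hu]
    rw [sum_balanced, smul_zero]⟩
  refine ⟨familyHom u, fun a f => ?_, hker, finite_quotient_range _ hker hrank⟩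
  simp only [familyHom_apply, Finset.smul_sum]
  refine (Fintype.sum_equiv (MulAction.toPerm a) _ _ fun v => ?_).symm
  simp only [MulAction.toPerm_apply, inv_smul_smul, hu, smul_balanced]
  rw [smul_comm]

end Fermat.Agent.DeckUnits
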