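import Fermat.Agent.PoitouTate.GlobalTUnits
import Fermat.Agent.DeckUnits.Algebra
import Fermat.Prelude.Def_GaloisRep_ComplexConjugation

/-!
# Deck-equivariant structure of the `T`-units of a transitive `G_ℚ`-set

For a finite group `A` of permutations of `X` commuting with `G_ℚ`, there is an `A`-equivariant
homomorphism from functions on the places of `X` (above `T` and at infinity) to the `T`-units,
with kernel the constants and finite cokernel.
-/

set_option autoImplicit false

noncomputable section

open scoped NumberField Classical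

namespace Fermat.Agent.DeckUnits

open Fermat.Agent.PoitouTate Fermat.Agent.GlobalUnits IsDedekindDomain NumberField

variable {X : Type*} {σ : GQ →* Equiv.Perm X}

/-- Infinite places of `X`: orbits of complex conjugation. -/
def infSetoid (σ : GQ →* Equiv.Perm X) : Setoid X where
  r x y := y = x ∨ y = σ complexConjugation x
  iseqv :=
    { refl := fun x => Or.inl rfl
      symm := by
        rintro x y (h | h)
        · exact Or.inl h.symm
        · refine Or.inr ?_
          rw [h, ← Equiv.Perm.mul_apply, ← map_mul, complexConjugation_mul_self, map_one,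
            Equiv.Perm.one_apply]
      trans := by
        rintro x y z (h | h) (h' | h')
        · exact Or.inl (h'.trans h)
        · exact Or.inr (h ▸ h')
        · exact Or.inr (h'.trans h)
        · refine Or.inl ?_
          rw [h', h, ← Equiv.Perm.mul_apply, ← map_mul, complexConjugation_mul_self, map_one,
            Equiv.Perm.one_apply] }

/-- The infinite places. -/
abbrev InfPlaces (σ : GQ →* Equiv.Perm X) := Quotient (infSetoid σ)

/-- The places above `T` together with the infinite places. -/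
abbrev AllPlaces (T : Finset Nat.Primes) (σ : GQ →* Equiv.Perm X) :=
  (Σ q : T, Places ((q : Nat.Primes) : ℕ) σ) ⊕ InfPlaces σ

section Deck

variable {A : Type*} [Group A] (α : A →* Equiv.Perm X)
  (hα : ∀ a, IsEquivMap σ σ (α a)) (T : Finset Nat.Primes)

/-- The map of places induced by a deck transformation. -/
def placeMap (q : ℕ) [Fact q.Prime] {π : X → X} (hπ : IsEquivMap σ σ π) :
    Places q σ → Places q σ :=
  Quotient.map π fun x y => by
    rintro ⟨g, h⟩
    exact ⟨g, (hπ _ x).symm.trans (congrArg π h)⟩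

/-- The map of infinite places induced by a deck transformation. -/
def infMap {π : X → X} (hπ : IsEquivMap σ σ π) : InfPlaces σ → InfPlaces σ :=
  Quotient.map π fun x y => by
    rintro (h | h)
    · exact Or.inl (congrArg π h)
    · exact Or.inr ((congrArg π h).trans (hπ _ x))

/-- The map of all places induced by a deck transformation. -/
def allMap {π : X → X} (hπ : IsEquivMap σ σ π) : AllPlaces T σ → AllPlaces T σ :=
  Sum.map (Sigma.map id fun q => placeMap ((q : Nat.Primes) : ℕ) hπ) (infMap hπ)

@[simp] theorem allMap_inl {π : X → X} (hπ : IsEquivMap σ σ π) (q : T) (x : X) :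
    allMap T hπ (Sum.inl ⟨q, Quotient.mk _ x⟩) = Sum.inl ⟨q, Quotient.mk _ (π x)⟩ := rfl

@[simp] theorem allMap_inr {π : X → X} (hπ : IsEquivMap σ σ π) (x : X) :
    allMap T hπ (Sum.inr (Quotient.mk _ x)) = Sum.inr (Quotient.mk _ (π x)) := rfl

/-- The action of deck transformations on all places. -/
def placesPerm : A →* Equiv.Perm (AllPlaces T σ) where
  toFun a :=
    { toFun := allMap T (hα a)
      invFun := allMap T (hα a⁻¹)
      left_inv := fun v => by
        rcases v with ⟨q, v⟩ | v <;> induction v using Quotient.inductionOn with | _ x => ?_ <;>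
          simp
      right_inv := fun v => by
        rcases v with ⟨q, v⟩ | v <;> induction v using Quotient.inductionOn with | _ x => ?_ <;>
          simp }
  map_one' := by
    ext v
    rcases v with ⟨q, v⟩ | v <;> induction v using Quotient.inductionOn with | _ x => ?_ <;> simp
  map_mul' a b := by
    ext v
    rcases v with ⟨q, v⟩ | v <;> induction v using Quotient.inductionOn with | _ x => ?_ <;> simp

@[simp] theorem placesPerm_inl (a : A) (q : T) (x : X) :
    placesPerm α hα T a (Sum.inl ⟨q, Quotient.mk _ x⟩) =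
      Sum.inl ⟨q, Quotient.mk _ (α a x)⟩ := rfl

@[simp] theorem placesPerm_inr (a : A) (x : X) :
    placesPerm α hα T a (Sum.inr (Quotient.mk _ x)) = Sum.inr (Quotient.mk _ (α a x)) := rfl

/-- Deck transformations on invariant functions. -/
def starDeck : Act A (GlobalStar σ) where
  toFun a := ((pull (α a⁻¹ : X → X)).comp (Inv (permAct σ globalUnits)).subtype).codRestrict _
    fun f g => by
      rw [AddMonoidHom.comp_apply, AddSubgroup.coe_subtype]
      have h := pull_intertwines (hα a⁻¹) globalUnits g f.1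
      rw [MonoidHom.id_apply] at h
      rw [← h, f.2 g]
  map_one' := by
    refine AddMonoidHom.ext fun f => Subtype.ext (funext fun x => ?_)
    show f.1 (α (1 : A)⁻¹ x) = f.1 x
    rw [inv_one, map_one, Equiv.Perm.one_apply]
  map_mul' a b := by
    refine AddMonoidHom.ext fun f => Subtype.ext (funext fun x => ?_)
    show f.1 (α (a * b)⁻¹ x) = f.1 (α b⁻¹ (α a⁻¹ x))
    rw [mul_inv_rev, map_mul, Equiv.Perm.mul_apply]

@[simp] theorem starDeck_apply (a : A) (f : GlobalStar σ) (x : X) :
    (starDeck α hα a f).1 x = f.1 (α a⁻¹ x) := rfl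

theorem starDeck_mem_tUnits (a : A) {f : GlobalStar σ} (hf : f ∈ tUnits T σ) :
    starDeck α hα a f ∈ tUnits T σ := by
  rw [mem_tUnits] at hf ⊢
  intro q hq x
  exact hf q hq (α a⁻¹ x)

/-- Deck transformations on `T`-units. -/
def unitsDeck : Act A ↥(tUnits T σ) where
  toFun a := ((starDeck α hα a).comp (tUnits T σ).subtype).codRestrict _
    fun f => starDeck_mem_tUnits α hα T a f.2
  map_one' := by
    refine AddMonoidHom.ext fun f => Subtype.ext ?_
    exact DFunLike.congr_fun (map_one (starDeck α hα)) f.1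
  map_mul' a b := by
    refine AddMonoidHom.ext fun f => Subtype.ext ?_
    exact DFunLike.congr_fun (map_mul (starDeck α hα) a b) f.1

@[simp] theorem unitsDeck_coe (a : A) (f : ↥(tUnits T σ)) :
    (unitsDeck α hα T a f : GlobalStar σ) = starDeck α hα a f := rfl

end Deck

section Log

theorem value_smul (f : GlobalStar σ) (g : GQ) (x : X) :
    f.1 (σ g x) = globalUnits g (f.1 x) :=
  Additive.toMul.injective (Units.ext (value_apply f g x))

/-- The negative logarithm of the absolute value in the fixed complex embedding. -/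
def logC : Additive QBarˣ →+ ℝ where
  toFun u := -Real.log ‖complexEmbedding ((u.toMul : QBarˣ) : QBar)‖
  map_zero' := by simp
  map_add' u v := by
    simp only [toMul_add, Units.val_mul, map_mul, norm_mul]
    rw [Real.log_mul (by simp) (by simp)]
    ring

variable (T : Finset Nat.Primes)

/-- The logarithmic map. -/
def logMap : ↥(tUnits T σ) →+ (AllPlaces T σ → ℝ) where
  toFun f := Sum.elim
    (fun z => Quotient.liftOn z.2 (fun x => ordQ ((z.1 : Nat.Primes) : ℕ)
      (embUnits ((z.1 : Nat.Primes) : ℕ) (f.1.1 x))) fun x y => by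
        rintro ⟨g, h⟩
        rw [← h, show localPerm ((z.1 : Nat.Primes) : ℕ) σ g =
            σ (localGaloisToGlobal ((z.1 : Nat.Primes) : ℕ) g) from rfl, value_smul,
          embUnits_intertwines, ordQ_smul])
    (fun z => Quotient.liftOn z (fun x => logC (f.1.1 x)) fun x y => by
      rintro (h | h)
      · rw [h]
      · rw [h, value_smul]
        show -Real.log ‖complexEmbedding _‖ =
          -Real.log ‖complexEmbedding (complexConjugation _)‖
        rw [complexEmbedding_complexConjugation, Complex.norm_conj])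
  map_zero' := by
    funext z
    rcases z with ⟨q, z⟩ | z <;> induction z using Quotient.inductionOn with | _ x => ?_ <;> simp
  map_add' f f' := by
    funext z
    rcases z with ⟨q, z⟩ | z <;> induction z using Quotient.inductionOn with | _ x => ?_ <;> simp

theorem logMap_inl (f : ↥(tUnits T σ)) (q : T) (x : X) :
    logMap T f (Sum.inl ⟨q, Quotient.mk _ x⟩) = ordAt σ f.1 (q : Nat.Primes) x := rfl

theorem logMap_inr (f : ↥(tUnits T σ)) (x : X) :
    logMap T f (Sum.inr (Quotient.mk _ x)) = logC (f.1.1 x) := rfl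

theorem logMap_unitsDeck {A : Type*} [Group A] (α : A →* Equiv.Perm X)
    (hα : ∀ a, IsEquivMap σ σ (α a)) (a : A) (f : ↥(tUnits T σ)) (v : AllPlaces T σ) :
    logMap T (unitsDeck α hα T a f) v = logMap T f (placesPerm α hα T a⁻¹ v) := by
  rcases v with ⟨q, v⟩ | v <;> induction v using Quotient.inductionOn with | _ x => ?_
  · rw [placesPerm_inl, logMap_inl, logMap_inl]
    rfl
  · rw [placesPerm_inr, logMap_inr, logMap_inr]
    rfl

end Log

section Field

variable (hσ : IsSmoothSet allLevels σ) (htr : IsTransitive σ) (x₀ : X)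
  [FiniteDimensional ℚ (fieldAt σ x₀)]

/-- The complex embedding of the field attached to `g`. -/
def embAt (g : GQ) : fieldAt σ x₀ →+* ℂ :=
  (complexEmbedding.toRingHom.comp g.toAlgHom.toRingHom).comp (fieldAt σ x₀).val.toRingHom

omit [FiniteDimensional ℚ ↥(fieldAt σ x₀)] in
/-- Unfolding of `embAt`. -/
@[simp] theorem embAt_apply (g : GQ) (a : fieldAt σ x₀) :
    embAt x₀ g a = complexEmbedding (g (a : QBar)) := rfl

omit [FiniteDimensional ℚ ↥(fieldAt σ x₀)] in
include hσ in
theorem apply_eq_of_embAt_eq {g h : GQ} (e : embAt (σ := σ) x₀ g = embAt x₀ h) :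
    σ g x₀ = σ h x₀ := by
  have hm : h⁻¹ * g ∈ (fieldAt σ x₀).fixingSubgroup := by
    rw [IntermediateField.mem_fixingSubgroup_iff]
    intro a ha
    have h1 : g a = h a := complexEmbedding.toRingHom.injective (RingHom.congr_fun e ⟨a, ha⟩)
    rw [AlgEquiv.mul_apply, h1, ← AlgEquiv.mul_apply, inv_mul_cancel, AlgEquiv.one_apply]
  rw [fixingSubgroup_fieldAt hσ, mem_stab, map_mul, map_inv, Equiv.Perm.mul_apply] at hm
  exact (Equiv.symm_apply_eq _).1 hm

omit [FiniteDimensional ℚ ↥(fieldAt σ x₀)] in
theorem embAt_eq_of_apply_eq {g h : GQ} (e : σ g x₀ = σ h x₀) :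
    embAt (σ := σ) x₀ g = embAt x₀ h := by
  refine RingHom.ext fun a => ?_
  have hm : h⁻¹ * g ∈ stab σ x₀ := by
    rw [mem_stab, map_mul, map_inv, Equiv.Perm.mul_apply, e]
    exact Equiv.symm_apply_apply _ _
  have h2 := (IntermediateField.mem_fixedField_iff _ _).1 a.2 _ hm
  rw [embAt_apply, embAt_apply]
  conv_rhs => rw [← h2]
  rw [← AlgEquiv.mul_apply, mul_inv_cancel_left]

omit [FiniteDimensional ℚ ↥(fieldAt σ x₀)] in
theorem conjugate_embAt (g : GQ) :
    ComplexEmbedding.conjugate (embAt (σ := σ) x₀ g) = embAt x₀ (complexConjugation * g) := by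
  refine RingHom.ext fun a => ?_
  rw [ComplexEmbedding.conjugate_coe_eq, embAt_apply, embAt_apply, AlgEquiv.mul_apply,
    complexEmbedding_complexConjugation]

omit [FiniteDimensional ℚ ↥(fieldAt σ x₀)] in
theorem exists_embAt_eq (φ : fieldAt σ x₀ →+* ℂ) : ∃ g : GQ, embAt x₀ g = φ := by
  let : Algebra (fieldAt σ x₀) ℂ := φ.toAlgebra
  have : Algebra.IsAlgebraic ℚ QBar := AlgebraicClosure.isAlgebraic ℚ
  have : IsAlgClosure ℚ QBar := ⟨inferInstance, inferInstance⟩
  have : Normal ℚ QBar := IsAlgClosure.normal ℚ QBar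
  have : Algebra.IsAlgebraic (fieldAt σ x₀) QBar := Algebra.IsAlgebraic.tower_top (K := ℚ) _
  let ψ : QBar →ₐ[ℚ] ℂ :=
    (IsAlgClosed.lift : QBar →ₐ[fieldAt σ x₀] ℂ).toRingHom.toRatAlgHom
  let : Algebra QBar ℂ := complexEmbedding.toRingHom.toAlgebra
  have : IsScalarTower ℚ QBar ℂ := IsScalarTower.of_algebraMap_eq' (Subsingleton.elim _ _)
  refine ⟨Normal.algHomEquivAut ℚ ℂ QBar ψ, RingHom.ext fun a => ?_⟩
  have h := AlgHom.congr_fun ((Normal.algHomEquivAut ℚ ℂ QBar).symm_apply_apply ψ) (a : QBar)
  exact h.trans ((IsAlgClosed.lift : QBar →ₐ[fieldAt σ x₀] ℂ).commutes a)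

/-- The infinite place of the field attached to an infinite place of `X`. -/
def toInfinitePlace : InfPlaces σ → InfinitePlace (fieldAt σ x₀) := fun z =>
  Quotient.liftOn z (fun x => InfinitePlace.mk (embAt x₀ (transporter htr x₀ x))) fun x y => by
    rintro (h | h)
    · rw [h]
    · rw [InfinitePlace.mk_eq_iff]
      refine Or.inr ?_
      rw [conjugate_embAt]
      refine embAt_eq_of_apply_eq x₀ ?_
      rw [map_mul, Equiv.Perm.mul_apply, transporter_apply, transporter_apply, h]

omit [FiniteDimensional ℚ ↥(fieldAt σ x₀)] in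
include hσ in
theorem toInfinitePlace_bijective : Function.Bijective (toInfinitePlace htr x₀) := by
  constructor
  · intro a b
    induction a using Quotient.inductionOn with | _ x =>
    induction b using Quotient.inductionOn with | _ y =>
    intro h
    rcases InfinitePlace.mk_eq_iff.1 (show InfinitePlace.mk (embAt x₀ (transporter htr x₀ x)) =
      InfinitePlace.mk (embAt x₀ (transporter htr x₀ y)) from h) with h | h
    · have := apply_eq_of_embAt_eq hσ x₀ h
      rw [transporter_apply, transporter_apply] at this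
      rw [this]
    · rw [conjugate_embAt] at h
      have := apply_eq_of_embAt_eq hσ x₀ h
      rw [map_mul, Equiv.Perm.mul_apply, transporter_apply, transporter_apply] at this
      exact Quotient.sound (Or.inr this.symm)
  · intro w
    obtain ⟨g, hg⟩ := exists_embAt_eq x₀ w.embedding
    refine ⟨Quotient.mk _ (σ g x₀), ?_⟩
    show InfinitePlace.mk (embAt x₀ (transporter htr x₀ (σ g x₀))) = w
    rw [embAt_eq_of_apply_eq x₀ (transporter_apply htr x₀ (σ g x₀)), hg,
      InfinitePlace.mk_embedding]

omit [FiniteDimensional ℚ ↥(fieldAt σ x₀)] in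
theorem logMap_inr_eq (T : Finset Nat.Primes) (f : ↥(tUnits T σ)) (x : X) :
    logMap T f (Sum.inr (Quotient.mk _ x)) =
      -Real.log (toInfinitePlace htr x₀ (Quotient.mk _ x)
        ((valueAt x₀ f.1).toMul : fieldAt σ x₀)) := by
  rw [logMap_inr]
  show -Real.log ‖complexEmbedding ((f.1.1 x).toMul : QBar)‖ = _
  show _ = -Real.log ‖embAt x₀ (transporter htr x₀ x) ((valueAt x₀ f.1).toMul : fieldAt σ x₀)‖
  rw [embAt_apply, valueAt_coe, ← value_apply, transporter_apply]

omit [FiniteDimensional ℚ (fieldAt σ x₀)] in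
/-- A functional killing the logarithms of units is a multiple of the multiplicities. -/
theorem exists_eq_mult_of_forall_units {K : Type*} [Field K] [NumberField K]
    (d : InfinitePlace K → ℝ)
    (h : ∀ u : (𝓞 K)ˣ, ∑ w : InfinitePlace K, d w * Real.log (w (u : K)) = 0) :
    ∃ k : ℝ, ∀ w : InfinitePlace K, d w = k * w.mult := by
  let w₀ : InfinitePlace K := Units.dirichletUnitTheorem.w₀
  have hm : ∀ w : InfinitePlace K, (w.mult : ℝ) ≠ 0 := fun w =>
    Nat.cast_ne_zero.2 InfinitePlace.mult_pos.ne'
  let k : ℝ := d w₀ / w₀.mult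
  let gφ : Units.dirichletUnitTheorem.logSpace K →ₗ[ℝ] ℝ :=
    ∑ w : {w : InfinitePlace K // w ≠ w₀}, (d w.1 / w.1.mult - k) • LinearMap.proj w
  have h0 : gφ = 0 := by
    refine LinearMap.ext_on (Units.dirichletUnitTheorem.unitLattice_span_eq_top K) ?_
    rintro _ ⟨u, -, rfl⟩
    show gφ (Units.logEmbedding K (Additive.ofMul u.toMul)) = 0
    simp only [gφ, LinearMap.coe_sum, Finset.sum_apply, LinearMap.smul_apply, LinearMap.proj_apply,
      Units.dirichletUnitTheorem.logEmbedding_component, smul_eq_mul]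
    have hsum := Units.sum_mult_mul_log (K := K) u.toMul
    have h1 := h u.toMul
    rw [Fintype.sum_eq_add_sum_subtype_ne _ w₀] at h1 hsum
    have e : ∀ w : {w : InfinitePlace K // w ≠ w₀},
        (d w.1 / w.1.mult - k) * ((w.1.mult : ℝ) * Real.log (w.1 (u.toMul : K))) =
          d w.1 * Real.log (w.1 (u.toMul : K)) -
            k * ((w.1.mult : ℝ) * Real.log (w.1 (u.toMul : K))) := fun w => by
      rw [sub_mul, ← mul_assoc (d w.1 / _), div_mul_cancel₀ _ (hm w.1)]
    rw [Finset.sum_congr rfl fun w _ => e w, Finset.sum_sub_distrib, ← Finset.mul_sum]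
    have ek : k * (w₀.mult : ℝ) = d w₀ := div_mul_cancel₀ _ (hm w₀)
    linear_combination h1 - k * hsum + Real.log (w₀ (u.toMul : K)) * ek
  refine ⟨k, fun w => ?_⟩
  by_cases hw : w = w₀
  · rw [hw]
    exact (div_mul_cancel₀ _ (hm w₀)).symm
  · have h1 := LinearMap.congr_fun h0 (Pi.single (⟨w, hw⟩ : {w : InfinitePlace K // w ≠ w₀}) 1)
    simp only [gφ, LinearMap.coe_sum, Finset.sum_apply, LinearMap.smul_apply,
      LinearMap.proj_apply, smul_eq_mul, LinearMap.zero_apply] at h1
    rw [Fintype.sum_eq_single (⟨w, hw⟩ : {w : InfinitePlace K // w ≠ w₀})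
      fun b hb => by simp [hb], Pi.single_eq_same, mul_one, sub_eq_zero, div_eq_iff (hm w)] at h1
    exact h1

/-- An element of nonnegative order everywhere has `Σ m_w log |x|_w ≥ 0`. -/
theorem sum_mult_log_nonneg {K : Type*} [Field K] [NumberField K] (x : Kˣ)
    (h : ∀ v : HeightOneSpectrum (𝓞 K), 0 ≤ ord v (Additive.ofMul x)) :
    0 ≤ ∑ w : InfinitePlace K, (w.mult : ℝ) * Real.log (w (x : K)) := by
  obtain ⟨y, hy⟩ : ∃ y : 𝓞 K, algebraMap (𝓞 K) K y = (x : K) := by
    refine HeightOneSpectrum.mem_integers_of_valuation_le_one K (x : K) fun v => ?_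
    rw [valuation_eq_exp_neg_ord, ← WithZero.exp_zero, WithZero.exp_le_exp]
    have := h v
    omega
  have hy0 : y ≠ 0 := by
    rintro rfl
    rw [map_zero] at hy
    exact x.ne_zero hy.symm
  have hprod := InfinitePlace.prod_eq_abs_norm (x : K)
  have hpos : ∀ w : InfinitePlace K, w (x : K) ^ w.mult ≠ 0 := fun w =>
    pow_ne_zero _ (InfinitePlace.pos_iff.2 x.ne_zero).ne'
  rw [← Finset.sum_congr rfl fun w _ => Real.log_pow (w (x : K)) w.mult,
    ← Real.log_prod fun w _ => hpos w, hprod]
  refine Real.log_nonneg ?_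
  have h2 : Algebra.norm ℚ (x : K) = (Algebra.norm ℤ y : ℤ) := by
    rw [← hy]
    exact (Algebra.coe_norm_int y).symm
  rw [h2]
  have h3 : Algebra.norm ℤ y ≠ 0 := by simpa [Algebra.norm_eq_zero_iff] using hy0
  exact_mod_cast Int.one_le_abs h3

include hσ htr x₀ in
/-- Together with the constants, the logarithm vectors of the `T`-units span everything. -/
theorem span_logMap_eq_top [Finite X] (T : Finset Nat.Primes) :
    Submodule.span ℝ (Set.range (logMap (σ := σ) T) ∪ {fun _ => (1 : ℝ)}) = ⊤ := by
  have : Fintype (Σ q : T, Places ((q : Nat.Primes) : ℕ) σ) := Fintype.ofFinite _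
  have : Fintype (InfPlaces σ) := Fintype.ofFinite _
  set W := Submodule.span ℝ (Set.range (logMap (σ := σ) T) ∪ {fun _ => (1 : ℝ)})
  by_contra hne
  obtain ⟨ℓ, hℓ0, hℓ⟩ := Submodule.exists_le_ker_of_lt_top W (lt_top_iff_ne_top.2 hne)
  let d : AllPlaces T σ → ℝ := fun v => ℓ (Pi.single v 1)
  have hd : ∀ F : AllPlaces T σ → ℝ, ℓ F = ∑ v, d v * F v := fun F => by
    conv_lhs => rw [← Finset.univ_sum_single F]
    rw [map_sum]
    refine Finset.sum_congr rfl fun v _ => ?_
    rw [show (Pi.single v (F v) : AllPlaces T σ → ℝ) = F v • Pi.single v 1 by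
      rw [← Pi.single_smul, smul_eq_mul, mul_one], map_smul, smul_eq_mul, mul_comm]
  have hrange : ∀ f, ∑ v, d v * logMap T f v = 0 := fun f => by
    rw [← hd]; exact hℓ (Submodule.subset_span (Or.inl ⟨f, rfl⟩))
  have hone : ∑ v, d v = 0 := by
    have h := hd fun _ => 1
    rw [show ℓ (fun _ => (1 : ℝ)) = 0 from hℓ (Submodule.subset_span (Or.inr rfl))] at h
    simpa using h.symm
  let e : InfPlaces σ ≃ InfinitePlace (fieldAt σ x₀) :=
    Equiv.ofBijective _ (toInfinitePlace_bijective hσ htr x₀)
  have hinf : ∀ f : ↥(tUnits T σ), ∑ z : InfPlaces σ, d (Sum.inr z) * logMap T f (Sum.inr z) =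
      -∑ w : InfinitePlace (fieldAt σ x₀),
        d (Sum.inr (e.symm w)) * Real.log (w ((valueAt x₀ f.1).toMul : fieldAt σ x₀)) := by
    intro f
    rw [← Finset.sum_neg_distrib]
    refine Fintype.sum_equiv e _ _ fun z => ?_
    rw [Equiv.symm_apply_apply]
    induction z using Quotient.inductionOn with | _ x => ?_
    rw [logMap_inr_eq htr x₀]
    show _ = -(_ * Real.log (toInfinitePlace htr x₀ _ _))
    ring
  obtain ⟨k, hk⟩ := exists_eq_mult_of_forall_units
    (fun w : InfinitePlace (fieldAt σ x₀) => d (Sum.inr (e.symm w))) fun u => by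
    set a : Additive (fieldAt σ x₀)ˣ := Additive.ofMul
      (Units.map (algebraMap (𝓞 (fieldAt σ x₀)) (fieldAt σ x₀)).toMonoidHom u) with ha
    have haord : ∀ v : HeightOneSpectrum (𝓞 (fieldAt σ x₀)), ord v a = 0 := by
      intro v
      refine (valuation_eq_one_iff v _).1 ?_
      rw [← HeightOneSpectrum.valuationOfNeZero_eq]
      exact congrArg _ (HeightOneSpectrum.valuation_of_unit_eq _ u)
    obtain ⟨f, hf⟩ := valueAt_surjective htr x₀ a
    have hfT : f ∈ tUnits T σ := by
      rw [mem_tUnits_iff_valueAt hσ htr x₀, hf, mem_sUnits]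
      exact fun v _ => haord v
    have h := hrange ⟨f, hfT⟩
    rw [Fintype.sum_sum_type, hinf ⟨f, hfT⟩, Finset.sum_eq_zero fun z _ => ?_, zero_add,
      neg_eq_zero] at h
    · rw [← h]
      refine Finset.sum_congr rfl fun w _ => ?_
      show _ = _ * Real.log (w ((valueAt x₀ f).toMul : fieldAt σ x₀))
      rw [hf]
      rfl
    · obtain ⟨q, z⟩ := z
      induction z using Quotient.inductionOn with | _ x => ?_
      rw [logMap_inl]
      rw [(ordAt_eq_zero_iff htr x₀ f (q : Nat.Primes) x).2 (by rw [hf]; exact haord _), mul_zero]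
  -- finite places
  have hfin : ∀ (q : T) (x : X), ∃ c : ℝ, 0 ≤ c ∧
      d (Sum.inl ⟨q, Quotient.mk _ x⟩) = k * c := by
    intro q x
    obtain ⟨a, ha⟩ := exists_ord_eq_card_mul (K := fieldAt σ x₀) (𝓞 (fieldAt σ x₀))
      (Finsupp.single (placeOf htr x₀ (q : Nat.Primes) x) 1)
    have hnn : ∀ v : HeightOneSpectrum (𝓞 (fieldAt σ x₀)), 0 ≤ ord v (Additive.ofMul a) :=
      fun v => by
        rw [ha, Finsupp.single_apply]
        split_ifs <;> simp
    obtain ⟨f, hf⟩ := valueAt_surjective htr x₀ (Additive.ofMul a)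
    have hfT : f ∈ tUnits T σ := by
      rw [mem_tUnits_iff_valueAt hσ htr x₀, hf, mem_sUnits]
      intro v hv
      rw [ha, Finsupp.single_apply, if_neg, mul_zero]
      rintro rfl
      exact hv ((placeOf_mem_placesOver_iff hσ htr x₀ T q x).2 q.2)
    set b : ℝ := ordAt σ f (q : Nat.Primes) x with hb
    have hbpos : 0 < b := by
      rw [hb, ordAt_eq_ord_placeOf_div htr x₀, hf, ha, Finsupp.single_eq_same, mul_one]
      refine div_pos ?_ ?_
      · exact_mod_cast Nat.card_pos
      · exact_mod_cast Int.lt_of_lt_of_le Int.zero_lt_one (one_le_eAt _ _ _)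
    have hS := sum_mult_log_nonneg a hnn
    set S := ∑ w : InfinitePlace (fieldAt σ x₀),
      (w.mult : ℝ) * Real.log (w (a : fieldAt σ x₀))
    refine ⟨S / b, div_nonneg hS hbpos.le, ?_⟩
    have h := hrange ⟨f, hfT⟩
    rw [Fintype.sum_sum_type, hinf ⟨f, hfT⟩,
      Fintype.sum_eq_single (⟨q, Quotient.mk _ x⟩ : Σ q : T, Places ((q : Nat.Primes) : ℕ) σ)]
      at h
    · rw [show (∑ w : InfinitePlace (fieldAt σ x₀), d (Sum.inr (e.symm w)) *
          Real.log (w ((valueAt x₀ f).toMul : fieldAt σ x₀))) = k * S by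
        rw [hf, Finset.mul_sum]
        exact Finset.sum_congr rfl fun w _ => by rw [hk w, mul_assoc]; rfl,
        logMap_inl, ← hb] at h
      rw [mul_div, eq_div_iff hbpos.ne']
      linarith
    · rintro ⟨q', z⟩ hne'
      induction z using Quotient.inductionOn with | _ y => ?_
      rw [logMap_inl]
      rw [(ordAt_eq_zero_iff htr x₀ f (q' : Nat.Primes) y).2 ?_, mul_zero]
      rw [hf, ha, Finsupp.single_apply, if_neg, mul_zero]
      intro hxy
      apply hne'
      obtain rfl : q = q' := Subtype.ext (prime_unique htr x₀ hxy)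
      exact congrArg (Sigma.mk q)
        (Quotient.sound ((placeOf_eq_iff hσ htr x₀ (q : Nat.Primes) y x).1 hxy.symm))
  -- the constant vector forces the multiplier to vanish
  have hk0 : k = 0 := by
    have hfin' : ∀ z : Σ q : T, Places ((q : Nat.Primes) : ℕ) σ,
        ∃ c : ℝ, 0 ≤ c ∧ d (Sum.inl z) = k * c := by
      rintro ⟨q, z⟩
      induction z using Quotient.inductionOn with | _ x => ?_
      exact hfin q x
    choose c hc0 hc using hfin'
    rw [Fintype.sum_sum_type, Finset.sum_congr rfl fun z _ => hc z, ← Finset.mul_sum,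
      show ∑ z : InfPlaces σ, d (Sum.inr z) = k * (Module.finrank ℚ (fieldAt σ x₀) : ℝ) by
        rw [← InfinitePlace.sum_mult_eq, Nat.cast_sum, Finset.mul_sum]
        refine Fintype.sum_equiv e _ _ fun z => ?_
        rw [← hk, Equiv.symm_apply_apply],
      ← mul_add] at hone
    refine (mul_eq_zero.1 hone).resolve_right (ne_of_gt ?_)
    have : (0 : ℝ) < Module.finrank ℚ (fieldAt σ x₀) := by exact_mod_cast Module.finrank_pos
    linarith [Finset.sum_nonneg fun z (_ : z ∈ Finset.univ) => hc0 z]
  apply hℓ0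
  refine LinearMap.ext fun F => ?_
  rw [hd, LinearMap.zero_apply]
  refine Finset.sum_eq_zero fun v _ => ?_
  have hv : d v = 0 := by
    rcases v with ⟨q, z⟩ | z
    · induction z using Quotient.inductionOn with | _ x => ?_
      obtain ⟨c, -, hc⟩ := hfin q x
      rw [hc, hk0, zero_mul]
    · have := hk (e z)
      rw [Equiv.symm_apply_apply, hk0, zero_mul] at this
      exact this
  rw [hv, zero_mul]

omit [FiniteDimensional ℚ (fieldAt σ x₀)] in
/-- The number of all places. -/
theorem finrank_tUnits_add_one [Finite X] (hσ : IsSmoothSet allLevels σ) (htr : IsTransitive σ)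
    (T : Finset Nat.Primes) :
    Module.Finite ℤ ↥(tUnits T σ) ∧
      Module.finrank ℤ ↥(tUnits T σ) + 1 = Nat.card (AllPlaces T σ) := by
  obtain ⟨x₀⟩ := htr.1
  have := finiteDimensional_fieldAt hσ x₀
  let e : ↥(tUnits T σ) ≃ₗ[ℤ] ↥(sUnits (fieldAt σ x₀) (placesOver (fieldAt σ x₀) T)) :=
    (tUnitsEquiv hσ htr x₀ T).toIntLinearEquiv
  refine ⟨Module.Finite.equiv e.symm, ?_⟩
  rw [e.finrank_eq, finrank_sUnits, card_placesOver hσ htr x₀, Nat.card_sum,
    Nat.card_eq_of_bijective _ (toInfinitePlace_bijective hσ htr x₀), Nat.card_sigma, numPlaces,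
    Nat.card_eq_fintype_card (α := InfinitePlace (fieldAt σ x₀)), NumberField.Units.rank]
  have : 0 < Fintype.card (InfinitePlace (fieldAt σ x₀)) := Fintype.card_pos
  omega

omit [FiniteDimensional ℚ (fieldAt σ x₀)] in
/-- The `T`-units are, up to finite groups and equivariantly for deck transformations, the
functions on the places modulo constants. -/
theorem exists_deckUnits [Finite X] {A : Type*} [Group A] [Finite A]
    (α : A →* Equiv.Perm X) (hα : ∀ a, IsEquivMap σ σ (α a))
    (hσ : IsSmoothSet allLevels σ) (htr : IsTransitive σ) (T : Finset Nat.Primes) :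
    ∃ φ : (AllPlaces T σ → ℤ) →+ ↥(tUnits T σ),
      (∀ (a : A) (f : AllPlaces T σ → ℤ),
        φ (fun v => f (placesPerm α hα T a⁻¹ v)) = unitsDeck α hα T a (φ f)) ∧
      (∀ f, φ f = 0 ↔ ∀ v v', f v = f v') ∧ Finite (↥(tUnits T σ) ⧸ φ.range) := by
  obtain ⟨x₀⟩ := htr.1
  have := finiteDimensional_fieldAt hσ x₀
  have : Fintype A := Fintype.ofFinite A
  have : Fintype (AllPlaces T σ) := Fintype.ofFinite _
  have : Nonempty (AllPlaces T σ) := ⟨Sum.inr (Quotient.mk _ x₀)⟩
  let : MulAction A (AllPlaces T σ) :=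
    { smul := fun a v => placesPerm α hα T a v
      one_smul := fun v => by
        show placesPerm α hα T 1 v = v
        rw [map_one, Equiv.Perm.one_apply]
      mul_smul := fun a b v => by
        show placesPerm α hα T (a * b) v = placesPerm α hα T a (placesPerm α hα T b v)
        rw [map_mul, Equiv.Perm.mul_apply] }
  let : DistribMulAction A ↥(tUnits T σ) :=
    { smul := fun a f => unitsDeck α hα T a f
      one_smul := fun f => DFunLike.congr_fun (map_one (unitsDeck α hα T)) f
      mul_smul := fun a b f => DFunLike.congr_fun (map_mul (unitsDeck α hα T) a b) f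
      smul_zero := fun a => map_zero (unitsDeck α hα T a)
      smul_add := fun a f f' => map_add (unitsDeck α hα T a) f f' }
  obtain ⟨hfg, hrank⟩ := finrank_tUnits_add_one hσ htr T
  have := hfg
  obtain ⟨φ, h1, h2, h3⟩ := exists_equivariant_hom (A := A) (logMap (σ := σ) T)
    (fun a f v => logMap_unitsDeck T α hα a f v) (span_logMap_eq_top hσ htr x₀ T)
    (by rw [hrank, Nat.card_eq_fintype_card])
  exact ⟨φ, h1, h2, h3⟩

end Field

end Fermat.Agent.DeckUnits
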